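import Fermat.Agent.S42.CharpolyTwo
import Fermat.Agent.F3.Interfaces
import Fermat.Agent.S13.OpenStab
import Fermat.Agent.S13.CountT
import Fermat.Agent.Lib.Frobenius.Exists
import Fermat.Prelude.Def_FreyPackage_EigenformResidualAttachment

set_option autoImplicit false

/-!
# S42 from S29

`EigenformResidualAttachmentAt M` for the prime of a Frey package follows from the statement of
S29 at level `M` (residual representation attached to a normalised eigenform), applied to the
residue field `ℤ̄ ⧸ 𝔪`, together with the fact that the `p`-torsion representation of the Frey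
curve has open kernel.
-/

namespace Fermat.Agent.S42Red

open WeierstrassCurve WeierstrassCurve.Affine WeierstrassCurve.Affine.Point Polynomial

local notation "Qb" => AlgebraicClosure ℚ
local notation "GQ" => (AlgebraicClosure ℚ ≃ₐ[ℚ] AlgebraicClosure ℚ)

/-- An open normal subgroup of `Gal(ℚ̄/ℚ)` is the fixing subgroup of a finite Galois subfield. -/
theorem exists_galois_field_of_open_normal (H : Subgroup GQ) (hn : H.Normal)
    (hopen : IsOpen (H : Set GQ)) :
    ∃ L : IntermediateField ℚ Qb, FiniteDimensional ℚ L ∧ IsGalois ℚ L ∧ L.fixingSubgroup = H := by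
  have hGal : IsGalois ℚ Qb := Fermat.Agent.FrobExists.isGalois_Qb
  let N : ClosedSubgroup GQ :=
    { toSubgroup := H
      isClosed' := Subgroup.isClosed_of_isOpen _ hopen }
  let L : IntermediateField ℚ Qb := IntermediateField.fixedField H
  have hfix : L.fixingSubgroup = H := InfiniteGalois.fixingSubgroup_fixedField N
  have hfin : FiniteDimensional ℚ L := by
    rw [← InfiniteGalois.isOpen_iff_finite, hfix]
    exact hopen
  have hgal : IsGalois ℚ L := by
    have hnormal : L.fixingSubgroup.Normal := by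
      rw [hfix]
      exact hn
    exact (InfiniteGalois.normal_iff_isGalois L).mp hnormal
  exact ⟨L, hfin, hgal, hfix⟩

/-- A subgroup containing the fixing subgroup of a finite subextension is open. -/
theorem isOpen_of_fixingSubgroup_le (H : Subgroup GQ) (L : IntermediateField ℚ Qb)
    (hL : FiniteDimensional ℚ L) (hle : L.fixingSubgroup ≤ H) : IsOpen (H : Set GQ) :=
  Subgroup.isOpen_mono hle (IntermediateField.fixingSubgroup_isOpen L)

/-- The kernel of the mod `p` representation of the Frey curve is open. -/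
theorem isOpen_ker_frey (P : FreyPackage) :
    IsOpen ((galoisRepModuleEnd (S := ℚ) (K := AlgebraicClosure ℚ) P.freyCurve P.p).ker :
      Set GQ) := by
  have hfin := Fermat.Agent.S13Count.frey_torsion_finite P
  have : ((galoisRepModuleEnd (S := ℚ) (K := AlgebraicClosure ℚ) P.freyCurve P.p).ker : Set GQ)
      = ⋂ x : Submodule.torsionBy ℤ (P.freyCurve⁄(AlgebraicClosure ℚ)).Point P.p,
          {σ : GQ | σ • x = x} := by
    ext σ
    simp only [SetLike.mem_coe, MonoidHom.mem_ker, Set.mem_iInter, Set.mem_ofPred_eq]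
    constructor
    · intro h x
      have := congrArg (fun f => f x) h
      simpa using this
    · intro h
      ext x
      simpa using congrArg Subtype.val (h x)
  rw [this]
  exact isOpen_iInter_of_finite fun x => Fermat.Agent.S13Open.frey_isOpen_stabilizer P x

/-- **S42 from S29.** -/
theorem eigenformResidualAttachmentAt_of_S29At (P : FreyPackage) (M : ℕ)
    (h29 : Fermat.Agent.F3.S29At M) : P.EigenformResidualAttachmentAt M := by
  intro g hg 𝔪 hmax hp𝔪
  letI : Field (integralClosure ℤ ℂ ⧸ 𝔪) := Ideal.Quotient.field 𝔪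
  have hp0 : ((P.p : ℕ) : integralClosure ℤ ℂ ⧸ 𝔪) = 0 := by
    have : (Ideal.Quotient.mk 𝔪) (P.p : integralClosure ℤ ℂ) = 0 :=
      Ideal.Quotient.eq_zero_iff_mem.mpr hp𝔪
    simpa using this
  haveI hchar : CharP (integralClosure ℤ ℂ ⧸ 𝔪) P.p :=
    (CharP.ringChar_of_prime_eq_zero P.pp hp0) ▸ ringChar.charP _
  letI : Algebra (ZMod P.p) (integralClosure ℤ ℂ ⧸ 𝔪) := ZMod.algebra _ P.p
  obtain ⟨ρ, hatt, -⟩ := h29 g hg P.p P.pp (integralClosure ℤ ℂ ⧸ 𝔪) (Ideal.Quotient.mk 𝔪)
  -- the finite Galois field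
  obtain ⟨L₁, hL₁fin, hL₁⟩ := ρ.factorsThroughFiniteLevel
  have hρopen : IsOpen ((ρ.ρ.ker : Subgroup GQ) : Set GQ) :=
    isOpen_of_fixingSubgroup_le _ L₁ hL₁fin (fun σ hσ => by
      rw [MonoidHom.mem_ker]
      exact hL₁ σ (fun x hx => hσ ⟨x, hx⟩))
  have hopen : IsOpen ((((galoisRepModuleEnd (S := ℚ) (K := AlgebraicClosure ℚ) P.freyCurve
      P.p).ker ⊓ ρ.ρ.ker : Subgroup GQ)) : Set GQ) := by
    rw [Subgroup.coe_inf]
    exact (isOpen_ker_frey P).inter hρopen
  obtain ⟨L, hLfin, hLgal, hLfix⟩ := exists_galois_field_of_open_normal _ inferInstance hopen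
  have hnf : NumberField L := { to_charZero := inferInstance, to_finiteDimensional := hLfin }
  refine ⟨integralClosure ℤ ℂ ⧸ 𝔪, inferInstance, inferInstance, ρ.V, inferInstance, inferInstance,
    ρ.ρ, Ideal.Quotient.mk 𝔪, L, inferInstance, hnf, hLgal, inferInstance, inferInstance,
    ?_, ρ.finrank_eq, ?_, ?_, ?_⟩
  · rw [Ideal.mk_ker]
  · intro σ hσ
    rw [← hLfix]
    intro x
    have h1 := AlgEquiv.restrictNormal_commutes σ L x
    have h2 : σ.restrictNormal L = 1 := hσ
    rw [h2] at h1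
    exact h1.symm
  · intro ℓ hℓ hℓM hℓp A hA τ hτ
    have hℓ0 : ((ℓ : ℕ) : integralClosure ℤ ℂ ⧸ 𝔪) ≠ 0 := by
      intro h0
      have := (CharP.cast_eq_zero_iff (integralClosure ℤ ℂ ⧸ 𝔪) P.p ℓ).mp h0
      exact hℓp ((Nat.prime_dvd_prime_iff_eq P.pp hℓ).mp this).symm
    obtain ⟨a, ha, hcp⟩ := hatt ℓ hℓ hℓM hℓ0 A hA τ hτ
    exact ⟨a, ha, (trace_det_of_charpoly ρ.finrank_eq (ρ.ρ τ) _ _ hcp).1⟩
  · intro ℓ hℓ hℓM hℓp A hA τ hτ
    have hℓ0 : ((ℓ : ℕ) : integralClosure ℤ ℂ ⧸ 𝔪) ≠ 0 := by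
      intro h0
      have := (CharP.cast_eq_zero_iff (integralClosure ℤ ℂ ⧸ 𝔪) P.p ℓ).mp h0
      exact hℓp ((Nat.prime_dvd_prime_iff_eq P.pp hℓ).mp this).symm
    obtain ⟨a, ha, hcp⟩ := hatt ℓ hℓ hℓM hℓ0 A hA τ hτ
    exact (trace_det_of_charpoly ρ.finrank_eq (ρ.ρ τ) _ _ hcp).2

/-- **S42 from the frozen statement of S29** (exact shapes).  The final `S42.lean` is
`s42_of_s29 (fun hg hp φ => Fermat.Agent.S29.result hg hp φ) P`. -/
theorem s42_of_s29
    (h29 : ∀ {N : ℕ} {g : CuspForm (CongruenceSubgroup.Gamma0 N) 2}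
      (_ : g.IsNormalizedEigenform) {p : ℕ} (_ : p.Prime) {k : Type} [Field k] [CharP k p]
      (φ : integralClosure ℤ ℂ →+* k),
      ∃ ρ : ResidualGaloisRep k, ρ.IsAttachedTo g φ ∧
        ∀ ℓ : ℕ, ℓ.Prime → ¬ ℓ ∣ N * p → ρ.IsUnramifiedAt ℓ)
    (P : FreyPackage) : ∀ M : ℕ, 0 < M → P.EigenformResidualAttachmentAt M :=
  fun M _ => eigenformResidualAttachmentAt_of_S29At P M
    (fun _ hg _ hp k _ _ φ => h29 hg hp φ)

end Fermat.Agent.S42Red
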