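import Mathlib

set_option autoImplicit false

/-!
# Trace and determinant from the characteristic polynomial in dimension two
-/

namespace Fermat.Agent.S42Red

open Polynomial Module

variable {F : Type*} [Field F] {V : Type*} [AddCommGroup V] [Module F V] [FiniteDimensional F V]

theorem quad_coeffs_eq {a b a' b' : F}
    (h : (X ^ 2 - C a * X + C b : F[X]) = X ^ 2 - C a' * X + C b') : a = a' ∧ b = b' := by
  have h0 := congrArg (fun q : F[X] => q.coeff 0) h
  have h1 := congrArg (fun q : F[X] => q.coeff 1) h
  simp only [coeff_add, coeff_sub, coeff_X_pow, coeff_C_mul, coeff_X_zero, coeff_C_zero,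
    mul_zero, sub_zero] at h0
  simp only [coeff_add, coeff_sub, coeff_X_pow, coeff_C_mul, coeff_X_one, coeff_C, mul_one] at h1
  norm_num at h0 h1
  exact ⟨h1, h0⟩

/-- In dimension two, `charpoly f = X² - t X + d` gives `trace f = t` and `det f = d`. -/
theorem trace_det_of_charpoly (hV : finrank F V = 2) (f : Module.End F V) (t d : F)
    (h : LinearMap.charpoly f = X ^ 2 - C t * X + C d) :
    LinearMap.trace F V f = t ∧ LinearMap.det f = d := by
  classical
  let b : Basis (Fin 2) F V := (Module.finBasis F V).reindex (finCongr hV)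
  have h1 : (LinearMap.toMatrix b b f).charpoly = LinearMap.charpoly f :=
    LinearMap.charpoly_toMatrix f b
  rw [Matrix.charpoly_fin_two, h] at h1
  obtain ⟨ht, hd⟩ := quad_coeffs_eq h1
  refine ⟨?_, ?_⟩
  · rw [LinearMap.trace_eq_matrix_trace F b f, ht]
  · rw [← LinearMap.det_toMatrix b f, hd]

end Fermat.Agent.S42Red
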